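import Fermat.Agent.S16.Defs
import Fermat.Agent.S20.L0_helper980
import Fermat.Agent.S22T.DeltaInt
import Fermat.Prelude.Def_ModularForm_HeckeOperatorForms
import Fermat.Prelude.Thm_ModularFormClass_qCoeff_heckeT

/-!
# S16, work package L1 (level one facts), part a — helper676

`SF_top_fourteen`, `MF_top_two`, `exists_tau` in the exact shape of the S16 skeleton.
-/

set_option autoImplicit false

noncomputable section

namespace Fermat.Agent.S16.H676

open UpperHalfPlane ModularForm CongruenceSubgroup MatrixGroups ModularFormClass EisensteinSeries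
open Fermat.Agent.S20 (MF SF)
open scoped Manifold

local notation "Δ" => ModularForm.discriminant

/-- `M₂(SL₂ℤ) = 0`. -/
theorem MF_top_two : MF (⊤ : Subgroup SL(2, ℤ)) 2 = ⊥ := by
  rw [eq_bot_iff]
  intro f hf
  have h0 : Fermat.Agent.S20.C980.ofMFtop hf = 0 := by
    have hr := ModularForm.levelOne_weight_two_rank_zero
    have hsub : Subsingleton (ModularForm 𝒮ℒ 2) := rank_zero_iff.mp hr
    exact Subsingleton.elim _ _
  have : f = 0 := by
    have := congrArg (fun g : ModularForm 𝒮ℒ 2 => (⇑g : ℍ → ℂ)) h0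
    simpa using this
  simp [this]

/-- `S₁₄(SL₂ℤ) = 0`. -/
theorem SF_top_fourteen : SF (⊤ : Subgroup SL(2, ℤ)) 14 = ⊥ := by
  rw [eq_bot_iff]
  intro f hf
  obtain ⟨g, hg, hfg⟩ := Fermat.Agent.S20.C980.exists_eq_discriminant_mul_top hf
  have hg' : g ∈ MF (⊤ : Subgroup SL(2, ℤ)) 2 := by
    have : (14 : ℤ) - 12 = 2 := by norm_num
    rwa [this] at hg
  rw [MF_top_two] at hg'
  have hg0 : g = 0 := by simpa using hg'
  simp [hfg, hg0]

/-! ## Ramanujan's `τ` and the Hecke relation at `p²` -/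

lemma mem_Gamma0_one (g : SL(2, ℤ)) : g ∈ Gamma0 1 := by
  rw [Gamma0_mem]
  exact Subsingleton.elim _ _

/-- `T_p Δ` as a level one cusp form of weight 12. -/
def heckeDelta (p : ℕ) (hp : p.Prime) : CuspForm 𝒮ℒ 12 where
  toFun := heckeT 12 p (Δ : ℍ → ℂ)
  slash_action_eq' := by
    intro γ hγ
    obtain ⟨g, rfl⟩ := hγ
    have hmem : (Matrix.SpecialLinearGroup.mapGL ℝ g) ∈
        ((Gamma0 1 : Subgroup SL(2, ℤ)) : Subgroup (GL (Fin 2) ℝ)) :=
      ⟨g, mem_Gamma0_one g, rfl⟩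
    refine heckeT_slash_eq_self_of_mem_Gamma0 (N := 1) 12 hp
      (fun h => hp.one_lt.ne' (Nat.dvd_one.mp h)) ?_ _ hmem
    intro γ' hγ'
    obtain ⟨g', -, rfl⟩ := hγ'
    exact SlashInvariantFormClass.slash_action_eq CuspForm.discriminant _ ⟨g', rfl⟩
  holo' := mdifferentiable_heckeT (CuspFormClass.holo CuspForm.discriminant) 12 p
  zero_at_cusps' := fun hc => CuspFormClass.isZeroAt_heckeT CuspForm.discriminant p hc

lemma coe_heckeDelta (p : ℕ) (hp : p.Prime) :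
    (⇑(heckeDelta p hp) : ℍ → ℂ) = heckeT 12 p (Δ : ℍ → ℂ) := rfl

lemma qCoeff_discriminant (n : ℕ) :
    qCoeff (Δ : ℍ → ℂ) n = (Fermat.Agent.S22T.tau n : ℂ) :=
  Fermat.Agent.S22T.qExpansion_discriminant_coeff n

lemma qCoeff_heckeDelta (p : ℕ) (hp : p.Prime) (n : ℕ) :
    qCoeff (heckeT 12 p (Δ : ℍ → ℂ)) n = coeffHeckeT 12 p (qCoeff (Δ : ℍ → ℂ)) n := by
  have := ModularFormClass.qCoeff_heckeT (k := 12) CuspForm.discriminant
    one_mem_strictPeriods_SL hp.ne_zero n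
  simpa using this

theorem tau_prime_sq (p : ℕ) (hp : p.Prime) :
    Fermat.Agent.S22T.tau (p ^ 2) = Fermat.Agent.S22T.tau p ^ 2 - (p : ℤ) ^ 11 := by
  obtain ⟨c, hc⟩ := CuspForm.exists_smul_discriminant_of_weight_eq_twelve (heckeDelta p hp)
  have hfun : heckeT 12 p (Δ : ℍ → ℂ) = c • (Δ : ℍ → ℂ) := by
    have := congrArg (fun g : CuspForm 𝒮ℒ 12 => (⇑g : ℍ → ℂ)) hc
    simpa [coe_heckeDelta] using this.symm
  have hana : AnalyticAt ℂ (cuspFunction 1 (Δ : ℍ → ℂ)) 0 :=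
    ModularFormClass.analyticAt_cuspFunction_zero CuspForm.discriminant one_pos
      one_mem_strictPeriods_SL
  have hq : ∀ n, coeffHeckeT 12 p (qCoeff (Δ : ℍ → ℂ)) n = c * qCoeff (Δ : ℍ → ℂ) n := by
    intro n
    rw [← qCoeff_heckeDelta p hp n, hfun]
    unfold ModularFormClass.qCoeff
    rw [qExpansion_smul hana c]
    simp
  have h1 := hq 1
  have hp1 : ¬ p ∣ 1 := fun h => hp.one_lt.ne' (Nat.dvd_one.mp h)
  rw [coeffHeckeT_of_not_dvd 12 hp1, one_mul, qCoeff_discriminant, qCoeff_discriminant,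
    Fermat.Agent.S22T.tau_one] at h1
  have hpp := hq p
  rw [coeffHeckeT_of_dvd 12 (dvd_refl p), Nat.div_self hp.pos, qCoeff_discriminant,
    qCoeff_discriminant, qCoeff_discriminant, Fermat.Agent.S22T.tau_one] at hpp
  have hc' : c = (Fermat.Agent.S22T.tau p : ℂ) := by simpa using h1.symm
  rw [hc'] at hpp
  have hcast : ((Fermat.Agent.S22T.tau (p ^ 2) : ℤ) : ℂ) =
      ((Fermat.Agent.S22T.tau p ^ 2 - (p : ℤ) ^ 11 : ℤ) : ℂ) := by
    have h12 : ((p : ℂ) ^ ((12 : ℤ) - 1)) = (p : ℂ) ^ 11 := by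
      norm_num
    rw [h12] at hpp
    push_cast
    rw [pow_two p]
    linear_combination hpp
  exact_mod_cast hcast

/-- Ramanujan's `τ` is integral, `τ(0) = 0`, `τ(1) = 1`, and `τ(p²) = τ(p)² - p¹¹`. -/
theorem exists_tau : ∃ τ : ℕ → ℤ, (∀ n, qCoeff (Δ : ℍ → ℂ) n = (τ n : ℂ)) ∧ τ 0 = 0 ∧ τ 1 = 1 ∧
    ∀ p : ℕ, p.Prime → τ (p ^ 2) = τ p ^ 2 - (p : ℤ) ^ 11 :=
  ⟨Fermat.Agent.S22T.tau, qCoeff_discriminant, Fermat.Agent.S22T.tau_zero,
    Fermat.Agent.S22T.tau_one, tau_prime_sq⟩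

end Fermat.Agent.S16.H676
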